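import Fermat.Agent.EC.Multiplicative.Count
import Fermat.Agent.EC.AtP.Line
import Fermat.Agent.Arith.RootsOfUnity

/-!
# The `p`-power torsion at a place of multiplicative reduction over `p`

The `p ^ n`-torsion with nonsingular reduction is cyclic of order `p ^ n`, and it does not exhaust
the `p`-torsion when `p` is odd.
-/

set_option autoImplicit false

open WeierstrassCurve Polynomial Fermat.Agent.Arith

namespace Fermat.Agent.EC.Rep

open Fermat.Agent.EC.Reduction Fermat.Agent.EC.Multiplicative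

local notation "Q̄" => AlgebraicClosure ℚ

theorem preNormEDS'_zero_of_three_le {R : Type*} [CommRing R] :
    ∀ n : ℕ, 3 ≤ n → preNormEDS' (0 : R) 0 0 n = 0 := by
  intro n
  induction n using Nat.strong_induction_on with
  | _ n ih =>
    intro hn
    by_cases h3 : n = 3
    · subst h3; simp
    by_cases h4 : n = 4
    · subst h4; simp
    rcases Nat.even_or_odd n with ⟨k, hk⟩ | ⟨k, hk⟩
    · obtain ⟨m, rfl⟩ : ∃ m, n = 2 * (m + 3) := ⟨k - 3, by omega⟩
      rw [preNormEDS'_even, ih (m + 3) (by omega) (by omega)]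
      simp
    · obtain ⟨m, rfl⟩ : ∃ m, n = 2 * (m + 2) + 1 := ⟨k - 2, by omega⟩
      rw [preNormEDS'_odd, ih (m + 4) (by omega) (by omega), ih (m + 3) (by omega) (by omega)]
      simp

/-- At the node all division polynomials of index at least three vanish. -/
theorem eval_preΨ'_node {k : Type*} [Field k] {V : Affine k} (C : NodalCurve V) {n : ℕ}
    (hn : 3 ≤ n) : (WeierstrassCurve.preΨ' V n).eval C.r = 0 := by
  have e3 : V.a₃ = -V.a₁ * C.r - 2 * C.t := by linear_combination C.eq₃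
  have e4 : V.a₄ = V.a₁ * C.t - 2 * V.a₂ * C.r - 3 * C.r ^ 2 := by linear_combination C.eq₄
  have e6 : V.a₆ =
      C.t ^ 2 + V.a₃ * C.t + V.a₁ * C.r * C.t - C.r ^ 3 - V.a₂ * C.r ^ 2 - V.a₄ * C.r := by
    have h := C.eq₆
    unfold nodeConst at h
    linear_combination h
  have h2 : (WeierstrassCurve.Ψ₂Sq V).eval C.r = 0 := by
    simp only [WeierstrassCurve.Ψ₂Sq, WeierstrassCurve.b₂, WeierstrassCurve.b₄,
      WeierstrassCurve.b₆, eval_add, eval_mul, eval_pow, eval_C, eval_X]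
    rw [e6, e3, e4]; ring
  have h3 : (WeierstrassCurve.Ψ₃ V).eval C.r = 0 := by
    simp only [WeierstrassCurve.Ψ₃, WeierstrassCurve.b₂, WeierstrassCurve.b₄,
      WeierstrassCurve.b₆, WeierstrassCurve.b₈, eval_add, eval_mul, eval_pow, eval_C, eval_X,
      eval_ofNat]
    rw [e6, e3, e4]; ring
  have h4 : (WeierstrassCurve.preΨ₄ V).eval C.r = 0 := by
    simp only [WeierstrassCurve.preΨ₄, WeierstrassCurve.b₂, WeierstrassCurve.b₄,
      WeierstrassCurve.b₆, WeierstrassCurve.b₈, eval_add, eval_mul, eval_pow, eval_C, eval_X,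
      eval_ofNat]
    rw [e6, e3, e4]; ring
  rw [WeierstrassCurve.preΨ', ← coe_evalRingHom, map_preNormEDS', map_pow, coe_evalRingHom, h2, h3,
    h4, zero_pow two_ne_zero]
  exact preNormEDS'_zero_of_three_le n hn

variable {W : WeierstrassCurve ℤ} {p : ℕ} {A : ValuationSubring Q̄}

/-- At a node over the odd prime `p`, not all of `E[p]` reduces to the origin. -/
theorem exists_torsion_not_inE1 (hA : A.LiesOverPrime p) (hp : p.Prime) (hp2 : p ≠ 2)
    (hΔ0 : W.Δ ≠ 0) (hΔ : (p : ℤ) ∣ W.Δ) (hc₄ : ¬ (p : ℤ) ∣ W.c₄) :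
    ∃ P : AtP.PointQBar W, p • P = 0 ∧ ¬ InE1 A P := by
  by_contra hall
  simp only [not_exists, not_and, not_not] at hall
  have : (W.map (Int.castRingHom ℚ)).IsElliptic :=
    (WeierstrassCurve.isElliptic_iff _).mpr (isUnit_iff_ne_zero.mpr (by
      rw [map_Δ]; simpa using hΔ0))
  have hodd : Odd p := hp.odd_of_ne_two hp2
  have hroots : ∀ x : Q̄, ((W.preΨ' p).map (Int.castRingHom Q̄)).eval x = 0 → x ∉ A := by
    intro x hx
    obtain ⟨y, hy⟩ := Fermat.Agent.EC.Torsion.exists_equation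
      ((W.map (Int.castRingHom ℚ))⁄Q̄).toAffine x
    have hns := Affine.equation_iff_nonsingular.mp hy
    exact hall _ ((AtP.eval_preΨ'_eq_zero_iff W hodd hns).mp hx)
  obtain ⟨h0, h1⟩ := AtP.dvd_coeff_of_roots_notMem hA hp _
    (AtP.exists_not_dvd_coeff_preΨ' W hp hp2 (fun h => hc₄ h.1) hodd) hroots
  obtain ⟨N, -⟩ := exists_node_int hA hp hΔ0 hΔ hc₄
  have hv := eval_preΨ'_node N.nodal (n := p) (by have := hp.two_le; omega)
  rw [WeierstrassCurve.map_preΨ'] at hv
  refine h0 ((Arith.intCast_residue_eq_zero_iff hA hp _).mp ?_)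
  have e : (W.preΨ' p).map (Int.castRingHom (IsLocalRing.ResidueField A)) =
      C (((W.preΨ' p).coeff 0 : ℤ) : IsLocalRing.ResidueField A) := by
    ext i
    cases i with
    | zero => simp
    | succ i =>
      rw [coeff_map, coeff_C_succ, eq_intCast]
      exact (Arith.intCast_residue_eq_zero_iff hA hp _).mpr (h1 i)
  rwa [e, eval_C] at hv

section Node

variable [DecidableEq (IsLocalRing.ResidueField A)]
  {V : Affine (IsLocalRing.ResidueField A)} {W' : Affine Q̄}

/-- `p`-power torsion with nonsingular reduction reduces to the origin at a place over `p`. -/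
theorem inE1_of_pow_nsmul_eq_zero [DecidableEq Q̄] (N : Node A W' V) (hA : A.LiesOverPrime p)
    (hp : p.Prime) {n : ℕ} {P : W'.Point} (hP : InE0 A V P) (h : p ^ n • P = 0) : InE1 A P := by
  have := residueField_charP hA hp
  have := Fact.mk hp
  refine (N.mu_eq_zero_iff ⟨P, hP⟩).mp ?_
  set u := N.mu ⟨P, hP⟩ with hu
  have h1 : p ^ n • u = 0 := by
    rw [hu, ← map_nsmul, show p ^ n • (⟨P, hP⟩ : N.red.E0) = 0 from Subtype.ext h, map_zero]
  have h2 : ((Additive.toMul u : (IsLocalRing.ResidueField A)ˣ) : IsLocalRing.ResidueField A)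
      ^ p ^ n = 1 := by
    rw [← Units.val_pow_eq_pow_val, ← toMul_nsmul, h1, toMul_zero, Units.val_one]
  have h3 : (((Additive.toMul u : (IsLocalRing.ResidueField A)ˣ) : IsLocalRing.ResidueField A) - 1)
      ^ p ^ n = 0 := by
    rw [sub_pow_char_pow, h2, one_pow, sub_self]
  exact Additive.toMul.injective (Units.ext (sub_eq_zero.mp (pow_eq_zero_iff'.mp h3).1))

end Node

open scoped Classical in
/-- The `p`-torsion with nonsingular reduction has order `p` when it is not all of `E[p]`. -/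
private theorem natCard_e0Torsion_prime {V : Affine (IsLocalRing.ResidueField A)}
    (N : Node A (((W.map (Int.castRingHom ℚ))⁄Q̄).toAffine) V) (hp : p.Prime)
    (hcard : Nat.card (Submodule.torsionBy ℤ (AtP.PointQBar W) (p ^ 1 : ℕ)) = (p ^ 1) ^ 2)
    (hlow : p ^ 1 ≤ Nat.card (N.e0Torsion (p ^ 1)))
    (hne : ∃ P : AtP.PointQBar W, p • P = 0 ∧ ¬ InE0 A V P) :
    Nat.card (N.e0Torsion (p ^ 1)) = p := by
  set T := (Submodule.torsionBy ℤ (AtP.PointQBar W) (p ^ 1 : ℕ)).toAddSubgroup with hT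
  have hle : N.e0Torsion (p ^ 1) ≤ T := inf_le_right
  have hne : N.e0Torsion (p ^ 1) ≠ T := by
    intro e
    obtain ⟨P, hP, hP1⟩ := hne
    have : P ∈ N.e0Torsion (p ^ 1) := by
      rw [e, hT, Submodule.mem_toAddSubgroup, Submodule.mem_torsionBy_iff, natCast_zsmul,
        pow_one]
      exact hP
    exact hP1 (N.mem_e0Torsion.mp this).1
  have hTcard : Nat.card T = p ^ 2 := by rw [hT]; exact hcard.trans (by rw [pow_one])
  have hd : Nat.card (N.e0Torsion (p ^ 1)) ∣ p ^ 2 := hTcard ▸ AddSubgroup.card_dvd_of_le hle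
  obtain ⟨i, hi, hi'⟩ := (Nat.dvd_prime_pow hp).mp hd
  have h1 := hlow
  rw [hi', pow_one] at h1
  interval_cases i
  · rw [pow_zero] at h1; have := hp.two_le; omega
  · rw [hi', pow_one]
  · have : Finite T := Nat.finite_of_card_ne_zero (by rw [hTcard]; exact pow_ne_zero 2 hp.ne_zero)
    exact absurd (AddSubgroup.eq_of_le_of_card_ge hle (hTcard.trans hi'.symm).le) hne

open scoped Classical in
/-- If the `p`-torsion with nonsingular reduction has order `p`, multiplication by `p` maps the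
`p ^ (n + 1)`-torsion with nonsingular reduction onto the `p ^ n`-torsion with nonsingular
reduction. -/
private theorem exists_mem_e0Torsion_nsmul_eq {V : Affine (IsLocalRing.ResidueField A)}
    (N : Node A (((W.map (Int.castRingHom ℚ))⁄Q̄).toAffine) V) (hp : p.Prime)
    (hlow : ∀ n, p ^ n ≤ Nat.card (N.e0Torsion (p ^ n)))
    (hC1 : Nat.card (N.e0Torsion (p ^ 1)) = p) (n : ℕ) {x : AtP.PointQBar W}
    (hx : x ∈ N.e0Torsion (p ^ n)) : ∃ y ∈ N.e0Torsion (p ^ (n + 1)), p • y = x := by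
  set Cn : ℕ → AddSubgroup (AtP.PointQBar W) := fun n => N.e0Torsion (p ^ n) with hCn
  have hmem : ∀ n x, x ∈ Cn n ↔ InE0 A V x ∧ p ^ n • x = 0 := fun n x => N.mem_e0Torsion
  have hfin : ∀ n, Finite (Cn n) := fun n => Nat.finite_of_card_ne_zero (by
    have : p ^ n ≤ Nat.card (Cn n) := hlow n
    have := Nat.one_le_pow n p hp.pos; omega)
  set f : ∀ n, Cn (n + 1) →+ Cn n := fun n =>
    { toFun := fun x => ⟨p • (x : AtP.PointQBar W), by
        obtain ⟨h0, h1⟩ := (hmem _ _).mp x.2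
        refine (hmem _ _).mpr ⟨?_, by rw [← mul_smul, ← pow_succ]; exact h1⟩
        show p • (x : AtP.PointQBar W) ∈ N.red.E0
        exact nsmul_mem (show (x : AtP.PointQBar W) ∈ N.red.E0 from h0) p⟩
      map_zero' := Subtype.ext (smul_zero p)
      map_add' := fun x y => Subtype.ext
        (smul_add p (x : AtP.PointQBar W) (y : AtP.PointQBar W)) } with hf
  -- the kernels have at most `p` elements
  have hker : ∀ n, Nat.card (f n).ker ≤ p := fun n => by
    have := hfin 1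
    refine (Nat.card_le_card_of_injective (fun x : (f n).ker => (⟨((x : Cn (n + 1)) :
      AtP.PointQBar W), (hmem 1 _).mpr ⟨((hmem _ _).mp x.1.2).1, ?_⟩⟩ : Cn 1)) ?_).trans_eq hC1
    · rw [pow_one]; exact congrArg Subtype.val x.2
    · intro x y h
      exact Subtype.ext (Subtype.ext (congrArg (fun z : Cn 1 => (z : AtP.PointQBar W)) h))
  have hstep : ∀ n, Nat.card (Cn (n + 1)) = Nat.card (f n).range * Nat.card (f n).ker := fun n => by
    rw [AddSubgroup.card_eq_card_quotient_mul_card_addSubgroup (f n).ker,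
      Nat.card_congr (QuotientAddGroup.quotientKerEquivRange (f n)).toEquiv]
  -- so level `n` has order exactly `p ^ n`, and the maps are onto
  have hCcard : ∀ n, Nat.card (Cn n) = p ^ n := by
    intro n
    refine le_antisymm ?_ (hlow n)
    induction n with
    | zero =>
      rw [pow_zero]
      refine (Nat.card_eq_one_iff_unique.mpr ⟨⟨fun (x y : Cn 0) => Subtype.ext ?_⟩,
        ⟨(0 : Cn 0)⟩⟩).le
      have h1 := ((hmem 0 _).mp x.2).2
      have h2 := ((hmem 0 _).mp y.2).2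
      rw [pow_zero, one_smul] at h1 h2
      rw [h1, h2]
    | succ n ih =>
      have := hfin n
      rw [hstep, pow_succ]
      exact Nat.mul_le_mul ((AddSubgroup.card_le_card_addGroup _).trans ih) (hker n)
  have hsurj : Function.Surjective (f n) := by
    have := hfin n
    rw [← AddMonoidHom.range_eq_top]
    refine AddSubgroup.eq_top_of_le_card _ (Nat.le_of_mul_le_mul_right ?_ hp.pos)
    rw [hCcard, ← pow_succ, ← hCcard (n + 1), hstep]
    exact Nat.mul_le_mul_left _ (hker n)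
  obtain ⟨y, hy⟩ := hsurj ⟨x, hx⟩
  exact ⟨y, y.2, congrArg Subtype.val hy⟩

/-- If multiplication by `p` maps each `C (n + 1)` onto `C n`, every element of `C 1` starts a
system compatible under multiplication by `p`. -/
private theorem exists_compatible_seq {M : Type*} [AddCommGroup M] (C : ℕ → AddSubgroup M) (p : ℕ)
    (hlift : ∀ n, ∀ x ∈ C n, ∃ y ∈ C (n + 1), p • y = x) {R₁ : M} (h1 : R₁ ∈ C 1)
    (hR₁ : p • R₁ = 0) :
    ∃ R : ℕ → M, R 1 = R₁ ∧ (∀ n, R n ∈ C n) ∧ ∀ n, (p : ℤ) • R (n + 1) = R n := by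
  choose g hgmem hg using hlift
  let S : ∀ n, C (n + 1) := fun n =>
    Nat.rec ⟨R₁, h1⟩ (fun k x => ⟨g (k + 1) x x.2, hgmem _ _ _⟩) n
  refine ⟨fun n => match n with | 0 => 0 | k + 1 => (S k).1, rfl, fun n => ?_, fun n => ?_⟩
  · match n with
    | 0 => exact zero_mem _
    | k + 1 => exact (S k).2
  · rw [natCast_zsmul]
    match n with
    | 0 => exact hR₁
    | k + 1 => exact hg _ _ _

/-- A system compatible under multiplication by `p` in `E` spans the `p`-power torsion of `E`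
level by level as soon as it spans the `p`-torsion of `E`. -/
private theorem eq_zsmul_of_compatible_seq {M : Type*} [AddCommGroup M] {E : AddSubgroup M}
    {p : ℕ} {R : ℕ → M} (hRE : ∀ n, R n ∈ E) (hR : ∀ n, (p : ℤ) • R (n + 1) = R n)
    (hspan : ∀ y ∈ E, p • y = 0 → ∃ j : ℤ, j • R 1 = y) (n : ℕ) :
    ∀ x : M, (p : ℤ) ^ n • x = 0 → x ∈ E → ∃ a : ℤ, x = a • R n := by
  have hRpow : ∀ k, (p : ℤ) ^ k • R (k + 1) = R 1 := fun k => by
    induction k with
    | zero => rw [pow_zero, one_smul]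
    | succ k ih => rw [pow_succ, mul_smul, hR, ih]
  induction n with
  | zero =>
    intro x hx _
    rw [pow_zero, one_smul] at hx
    exact ⟨0, hx.trans (zero_smul ℤ (R 0)).symm⟩
  | succ k ih =>
    intro x hx hx0
    -- `p • x` is a multiple of `R k`, so `x` is one of `R (k + 1)` up to `p`-torsion
    obtain ⟨a, ha⟩ := ih ((p : ℤ) • x) (by rw [← mul_smul, ← pow_succ]; exact hx)
      (zsmul_mem hx0 _)
    obtain ⟨j, hj⟩ := hspan (x - a • R (k + 1)) (sub_mem hx0 (zsmul_mem (hRE _) a)) (by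
      rw [← natCast_zsmul, smul_sub, smul_comm _ a, hR, ← ha, sub_self])
    refine ⟨a + j * (p : ℤ) ^ k, ?_⟩
    rw [add_smul, mul_smul, hRpow, hj, add_sub_cancel]

open scoped Classical in
/-- At a node over `q`, if some `p`-torsion point has singular reduction, the `p`-power torsion with
nonsingular reduction is a compatible system of cyclic groups of order `p ^ n`. -/
theorem exists_inE0_system_of_node {q : ℕ} (hA : A.LiesOverPrime q) (hq : q.Prime) (hp : p.Prime)
    (hΔ0 : W.Δ ≠ 0) (hΔ : (q : ℤ) ∣ W.Δ) (hc₄ : ¬ (q : ℤ) ∣ W.c₄)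
    (hne : ∃ P : AtP.PointQBar W, p • P = 0 ∧
      ¬ InE0 A (W.map (Int.castRingHom (IsLocalRing.ResidueField A))) P) :
    ∃ R : ℕ → AtP.PointQBar W, (∀ n, (p : ℤ) ^ n • R n = 0) ∧
      (∀ n, (p : ℤ) • R (n + 1) = R n) ∧ R 1 ≠ 0 ∧
      (∀ n, InE0 A (W.map (Int.castRingHom (IsLocalRing.ResidueField A))) (R n)) ∧
      ∀ n (x : AtP.PointQBar W), (p : ℤ) ^ n • x = 0 →
        InE0 A (W.map (Int.castRingHom (IsLocalRing.ResidueField A))) x → ∃ a : ℤ, x = a • R n := by
  have : (W.map (Int.castRingHom ℚ)).IsElliptic :=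
    (WeierstrassCurve.isElliptic_iff _).mpr (isUnit_iff_ne_zero.mpr (by
      rw [map_Δ]; simpa using hΔ0))
  have := Fact.mk hp
  obtain ⟨N, -⟩ := exists_node_int hA hq hΔ0 hΔ hc₄
  have hcard : ∀ n, Nat.card (Submodule.torsionBy ℤ (AtP.PointQBar W) (p ^ n : ℕ)) = (p ^ n) ^ 2 :=
    fun n => Fermat.Agent.EC.Torsion.natCard_torsionBy_algebraicClosureRat
      (W.map (Int.castRingHom ℚ)) (pow_ne_zero n hp.ne_zero)
  have hlow : ∀ n, p ^ n ≤ Nat.card (N.e0Torsion (p ^ n)) := fun n =>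
    Multiplicative.Node.le_natCard_e0Torsion N (pow_ne_zero n hp.ne_zero) (hcard n)
  have hC1 : Nat.card (N.e0Torsion (p ^ 1)) = p :=
    natCard_e0Torsion_prime N hp (hcard 1) (hlow 1) hne
  have : Finite (N.e0Torsion (p ^ 1)) :=
    Nat.finite_of_card_ne_zero (hC1.symm ▸ hp.ne_zero)
  have : Nontrivial (N.e0Torsion (p ^ 1)) :=
    Finite.one_lt_card_iff_nontrivial.mp (hC1.symm ▸ hp.one_lt)
  obtain ⟨R₁, hR₁⟩ := exists_ne (0 : N.e0Torsion (p ^ 1))
  obtain ⟨R, hR1, hRmem, hRstep⟩ := exists_compatible_seq (fun n => N.e0Torsion (p ^ n)) p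
    (fun n x hx => exists_mem_e0Torsion_nsmul_eq N hp hlow hC1 n hx) R₁.2
    (by simpa using (N.mem_e0Torsion.mp R₁.2).2)
  refine ⟨R, fun n => ?_, hRstep, fun e => hR₁ (Subtype.ext (hR1.symm.trans e)),
    fun n => (N.mem_e0Torsion.mp (hRmem n)).1,
    eq_zsmul_of_compatible_seq (E := N.red.E0) (fun n => (N.mem_e0Torsion.mp (hRmem n)).1)
      hRstep fun y hy hpy => ?_⟩
  · rw [← Nat.cast_pow, natCast_zsmul]; exact (N.mem_e0Torsion.mp (hRmem n)).2
  · -- level one is cyclic of prime order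
    have hy1 : y ∈ N.e0Torsion (p ^ 1) := N.mem_e0Torsion.mpr ⟨hy, by rwa [pow_one]⟩
    obtain ⟨j, hj⟩ := AddSubgroup.mem_zmultiples_iff.mp
      (mem_zmultiples_of_prime_card (g := R₁) (g' := ⟨y, hy1⟩) hC1 hR₁)
    exact ⟨j, hR1.symm ▸ congrArg Subtype.val hj⟩

open scoped Classical in
/-- The kernel of reduction gives a compatible system of cyclic subgroups of order `p ^ n`,
which is all the `p`-power torsion with nonsingular reduction. -/
theorem exists_inE0_system (hA : A.LiesOverPrime p) (hp : p.Prime) (hp2 : p ≠ 2)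
    (hΔ0 : W.Δ ≠ 0) (hΔ : (p : ℤ) ∣ W.Δ) (hc₄ : ¬ (p : ℤ) ∣ W.c₄) :
    ∃ R : ℕ → AtP.PointQBar W, (∀ n, (p : ℤ) ^ n • R n = 0) ∧
      (∀ n, (p : ℤ) • R (n + 1) = R n) ∧ R 1 ≠ 0 ∧
      (∀ n, InE0 A (W.map (Int.castRingHom (IsLocalRing.ResidueField A))) (R n)) ∧
      ∀ n (x : AtP.PointQBar W), (p : ℤ) ^ n • x = 0 →
        InE0 A (W.map (Int.castRingHom (IsLocalRing.ResidueField A))) x → ∃ a : ℤ, x = a • R n := by
  obtain ⟨N, -⟩ := exists_node_int hA hp hΔ0 hΔ hc₄
  obtain ⟨P, hP, hP1⟩ := exists_torsion_not_inE1 hA hp hp2 hΔ0 hΔ hc₄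
  exact exists_inE0_system_of_node hA hp hp hΔ0 hΔ hc₄ ⟨P, hP, fun h =>
    hP1 (inE1_of_pow_nsmul_eq_zero N hA hp h (n := 1) (by rw [pow_one]; exact hP))⟩

end Fermat.Agent.EC.Rep
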