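import Fermat.Agent.EC.Rep.Local.Line
import Fermat.Agent.EC.Rep.Local.NodeTorsion
import Fermat.Agent.EC.Rep.Tate.DetCyclotomic
import Fermat.Agent.EC.Multiplicative.Frobenius

/-!
# Multiplicative reduction at the residue characteristic

For an integral model with multiplicative reduction at the odd prime `p`, both `E[p]` and the
`p`-adic Tate module are strictly ordinary at `p`.
-/

set_option autoImplicit false

open scoped Pointwise
open WeierstrassCurve Fermat.Agent.Arith

namespace Fermat.Agent.EC.Rep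

open Fermat.Agent.EC.Reduction Fermat.Agent.EC.Multiplicative

local notation "GQ" => AlgebraicClosure ℚ ≃ₐ[ℚ] AlgebraicClosure ℚ

variable {W : WeierstrassCurve ℤ} {p : ℕ} {A : ValuationSubring (AlgebraicClosure ℚ)}

theorem exists_res_map {σ : GQ} (hσ : σ ∈ A.decompositionSubgroup ℚ) :
    σ • A = A ∧ ∃ φ : IsLocalRing.ResidueField A →+* IsLocalRing.ResidueField A,
      ∀ x ∈ A, res A (σ x) = φ (res A x) := by
  refine ⟨hσ, MulSemiringAction.toRingHom _ _ (⟨σ, hσ⟩ : A.decompositionSubgroup ℚ),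
    fun x hx => ?_⟩
  rw [res_of_mem (map_mem_of_mem_decomposition hσ hx), res_of_mem hx]
  exact (residue_smul hσ ⟨x, hx⟩).symm

/-- The action of the decomposition group on points, modulo nonsingular reduction. -/
theorem exists_sign_decomposition (hA : A.LiesOverPrime p) (hp : p.Prime) (hΔ0 : W.Δ ≠ 0)
    (hΔ : (p : ℤ) ∣ W.Δ) (hc₄ : ¬ (p : ℤ) ∣ W.c₄) {σ : GQ}
    (hσ : σ ∈ A.decompositionSubgroup ℚ) :
    ∃ ε : ℤ, ε * ε = 1 ∧
      (∀ P : AtP.PointQBar W,
        InE0 A (W.map (Int.castRingHom (IsLocalRing.ResidueField A))) (σ • P - ε • P)) ∧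
      ∀ P : AtP.PointQBar W, InE0 A (W.map (Int.castRingHom (IsLocalRing.ResidueField A))) P →
        InE0 A (W.map (Int.castRingHom (IsLocalRing.ResidueField A))) (σ • P) := by
  classical
  obtain ⟨N, -⟩ := exists_node_int hA hp hΔ0 hΔ hc₄
  obtain ⟨hs, φ, hφ⟩ := exists_res_map hσ
  refine ⟨N.sign σ, ?_, fun P => N.inE0_smul_sub_sign hs hφ P,
    fun P hP => (N.red.inE0_smul_iff hs hφ).mpr hP⟩
  rcases N.sign_eq_one_or σ with h | h <;> rw [h] <;> norm_num

variable [Fact p.Prime] (hΔ : W.Δ ≠ 0)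

/-- At a multiplicative odd `p`, `E[p]` is strictly ordinary. -/
theorem isStrictOrdinaryAt_residualRep (hp2 : p ≠ 2) (hdvd : (p : ℤ) ∣ W.Δ)
    (hc₄ : ¬ (p : ℤ) ∣ W.c₄) :
    (GaloisRepAdic.ofResidualGaloisRep (residualRep W p hΔ)).IsStrictOrdinaryAt p := by
  classical
  have hp : p.Prime := Fact.out
  refine isStrictOrdinaryAt_of_lines _ (detIsCyclotomic_residualRep hΔ) fun A hA => ?_
  set V := W.map (Int.castRingHom (IsLocalRing.ResidueField A)) with hV
  -- The points of nonsingular reduction in `E[p]` form the line spanned by a point `r`.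
  obtain ⟨R, htor, -, hR1, hR0, hgen⟩ := exists_inE0_system hA hp hp2 hΔ hdvd hc₄
  let r : (residualRep W p hΔ).V := ⟨R 1, by
    rw [Submodule.mem_torsionBy_iff]; have := htor 1; rwa [pow_one] at this⟩
  have hr : r ≠ 0 := fun e => hR1 (congrArg Subtype.val e)
  have hmem : ∀ v : (residualRep W p hΔ).V, InE0 A V (Subtype.val v : AtP.PointQBar W) →
      v ∈ (ZMod p) ∙ r := by
    intro v hv
    obtain ⟨a, ha⟩ := hgen 1 (Subtype.val v)
      (by rw [pow_one]; exact (Submodule.mem_torsionBy_iff _ _).mp v.2) hv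
    rw [Submodule.mem_span_singleton]
    refine ⟨(a : ZMod p), ?_⟩
    rw [Int.cast_smul_eq_zsmul]
    exact Subtype.ext ha.symm
  obtain ⟨s, hs⟩ : ∃ s, s ∉ (ZMod p) ∙ r := by
    by_contra hall
    simp only [not_exists, not_not] at hall
    have := finrank_span_singleton (K := ZMod p) hr
    rw [Submodule.eq_top_iff'.mpr hall, finrank_top, (residualRep W p hΔ).finrank_eq] at this
    omega
  -- Extend `r` to a basis of `E[p]`.
  have hb : LinearIndependent (ZMod p) ![r, s] := by
    rw [linearIndependent_fin2]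
    refine ⟨fun e => hs (by simp at e; rw [e]; exact zero_mem _), fun a e => ?_⟩
    simp at e
    rcases eq_or_ne a 0 with rfl | ha
    · exact hr (by simpa using e.symm)
    · exact hs (Submodule.mem_span_singleton.mpr ⟨a⁻¹, by rw [← e, inv_smul_smul₀ ha]⟩)
  let b := basisOfLinearIndependentOfCardEqFinrank hb
    (by rw [Fintype.card_fin, (residualRep W p hΔ).finrank_eq])
  have hb0 : b 0 = r := by simp [b]
  rw [← hb0] at hmem
  have hR0' : InE0 A V (Subtype.val (b 0) : AtP.PointQBar W) := by rw [hb0]; exact hR0 1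
  -- Inertia moves every point into this line, and acts on it and on the quotient by a sign.
  refine ⟨b, fun σ hσ v => ?_, fun σ hσ => ?_⟩
  · exact hmem _ (inE0_smul_sub_of_semistable hA hp hΔ (fun h => hc₄ h.1) hσ _)
  obtain ⟨ε, hε, h1, h2⟩ := exists_sign_decomposition hA hp hΔ hdvd hc₄ hσ
  refine ⟨hmem _ (h2 _ hR0'), (ε : ZMod p), ?_, fun v => ?_⟩
  · rw [← Int.cast_mul, hε, Int.cast_one]
  · refine hmem _ ?_
    rw [Int.cast_smul_eq_zsmul]
    exact h1 _

/-- A compatible system generating the torsion of nonsingular reduction gives a basis of the Tate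
module whose first line contains every point with nonsingular reduction at all levels. -/
theorem exists_basis_of_inE0_system (R : ℕ → AtP.PointQBar W)
    (htor : ∀ n, (p : ℤ) ^ n • R n = 0) (hstep : ∀ n, (p : ℤ) • R (n + 1) = R n) (hR1 : R 1 ≠ 0)
    (hgen : ∀ n (x : AtP.PointQBar W), (p : ℤ) ^ n • x = 0 →
      InE0 A (W.map (Int.castRingHom (IsLocalRing.ResidueField A))) x → ∃ a : ℤ, x = a • R n) :
    ∃ b : Module.Basis (Fin 2) ℤ_[p] (tateRep W p hΔ).V, (∀ n, tateRed hΔ n (b 0) = R n) ∧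
      ∀ v : (tateRep W p hΔ).V,
        (∀ n, InE0 A (W.map (Int.castRingHom (IsLocalRing.ResidueField A))) (tateRed hΔ n v)) →
          v ∈ ℤ_[p] ∙ b 0 := by
  classical
  -- The system is an element `w` of the Tate module, primitive as `R 1 ≠ 0`, hence part of a basis.
  obtain ⟨w, hw⟩ := (tateBasis W p hΔ).exists_forall_red_eq R htor hstep
  have hunit : IsUnit w.1 ∨ IsUnit w.2 := by
    by_contra h
    simp only [not_or] at h
    refine hR1 ((hw 1).symm.trans ((tateRed_eq_zero_iff hΔ 1 w).mpr ?_))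
    rw [pow_one, ← PadicInt.maximalIdeal_eq_span_p]
    exact ⟨h.1, h.2⟩
  obtain ⟨b, hb0⟩ : ∃ b : Module.Basis (Fin 2) ℤ_[p] (tateRep W p hΔ).V,
      b 0 = (show (tateRep W p hΔ).V from w) := exists_basis_zero_eq w hunit
  have hw' : ∀ n, tateRed hΔ n (b 0) = R n := fun n => by rw [hb0]; exact hw n
  have hmem : ∀ v : (tateRep W p hΔ).V,
    (∀ n, InE0 A (W.map (Int.castRingHom (IsLocalRing.ResidueField A))) (tateRed hΔ n v)) →
      v ∈ ℤ_[p] ∙ b 0 := by
    intro v hv
    -- Modulo `pⁿ` the second coordinate of such a `v` vanishes, for every `n`, so it vanishes.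
    have key : ∀ n, b.repr v 1 ∈ Ideal.span {(p : ℤ_[p]) ^ n} := by
      intro n
      obtain ⟨a, ha⟩ := hgen n (tateRed hΔ n v) (pow_smul_tateRed hΔ n v) (hv n)
      have h0 : tateRed hΔ n (v - a • b 0) = 0 := by
        rw [map_sub, map_zsmul, ha, hw', sub_self]
      obtain ⟨h1, h2⟩ := (tateRed_eq_zero_iff hΔ n _).mp h0
      obtain ⟨c₁, hc₁⟩ := Ideal.mem_span_singleton'.mp h1
      obtain ⟨c₂, hc₂⟩ := Ideal.mem_span_singleton'.mp h2
      have e : v - a • b 0 =
          (p : ℤ_[p]) ^ n • (show (tateRep W p hΔ).V from (c₁, c₂)) :=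
        Prod.ext (hc₁.symm.trans (mul_comm _ _)) (hc₂.symm.trans (mul_comm _ _))
      have e2 := congrArg (fun z => b.repr z 1) e
      simp only [map_sub, map_zsmul, map_smul, Finsupp.sub_apply, Finsupp.smul_apply,
        Module.Basis.repr_self, smul_eq_mul] at e2
      rw [Finsupp.single_eq_of_ne (by decide), zsmul_zero, sub_zero] at e2
      exact Ideal.mem_span_singleton'.mpr ⟨_, by rw [e2, mul_comm]⟩
    have h10 : b.repr v 1 = 0 := by
      rw [← PadicInt.ext_of_toZModPow]
      intro n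
      rw [map_zero, ← RingHom.mem_ker, PadicInt.ker_toZModPow]
      exact key n
    refine Submodule.mem_span_singleton.mpr ⟨b.repr v 0, ?_⟩
    conv_rhs => rw [← b.sum_repr v, Fin.sum_univ_two, h10, zero_smul, add_zero]
  exact ⟨b, hw', hmem⟩

/-- At a multiplicative odd `p`, the Tate module is strictly ordinary. -/
theorem isStrictOrdinaryAt_tateRep (hp2 : p ≠ 2) (hdvd : (p : ℤ) ∣ W.Δ)
    (hc₄ : ¬ (p : ℤ) ∣ W.c₄) :
    (tateRep W p hΔ).IsStrictOrdinaryAt p := by
  classical
  have hp : p.Prime := Fact.out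
  refine isStrictOrdinaryAt_of_lines _ (detIsCyclotomic_tateRep hΔ) fun A hA => ?_
  set V := W.map (Int.castRingHom (IsLocalRing.ResidueField A)) with hV
  obtain ⟨R, htor, hstep, hR1, hR0, hgen⟩ := exists_inE0_system hA hp hp2 hΔ hdvd hc₄
  obtain ⟨b, hw', hmem⟩ := exists_basis_of_inE0_system hΔ R htor hstep hR1 hgen
  refine ⟨b, fun σ hσ v => hmem _ fun n => ?_, fun σ hσ => ?_⟩
  · rw [map_sub, red_tateRep]
    exact inE0_smul_sub_of_semistable hA hp hΔ (fun h => hc₄ h.1) hσ _
  obtain ⟨ε, hε, h1, h2⟩ := exists_sign_decomposition hA hp hΔ hdvd hc₄ hσ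
  refine ⟨hmem _ fun n => ?_, (ε : ℤ_[p]), ?_, fun v => hmem _ fun n => ?_⟩
  · rw [red_tateRep, hw']
    exact h2 _ (hR0 n)
  · rw [← Int.cast_mul, hε, Int.cast_one]
  · rw [map_sub, red_tateRep, Int.cast_smul_eq_zsmul, map_zsmul]
    exact h1 _

end Fermat.Agent.EC.Rep
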