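import Fermat.Agent.EC.Rep.Tate.Curve
import Fermat.Agent.EC.Multiplicative.Int

/-!
# Inertia at semistable primes away from the residue characteristic

At a prime `q ≠ p` where an integral model is semistable, inertia acts unipotently on `E[p]` and on
the `p`-adic Tate module.
-/

set_option autoImplicit false

open Polynomial

namespace Fermat.Agent.EC.Rep

local notation "Q̄" => AlgebraicClosure ℚ
local notation "GQ" => AlgebraicClosure ℚ ≃ₐ[ℚ] AlgebraicClosure ℚ

/-- On a free module of rank two over a domain, an endomorphism with `(T - 1)² = 0` has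
characteristic polynomial `(X - 1)²`. -/
theorem charpoly_eq_sq_of_sub_one_sq {A : Type*} [CommRing A] [IsDomain A] {V : Type*}
    [AddCommGroup V] [Module A V] [Module.Free A V] [Module.Finite A V]
    (hV : Module.finrank A V = 2) (T : Module.End A V) (h : (T - 1) * (T - 1) = 0) :
    LinearMap.charpoly T = (X - 1) ^ 2 := by
  let b := Module.finBasisOfFinrankEq A V hV
  set N := LinearMap.toMatrix b b (T - 1) with hN
  have hNN : N * N = 0 := by rw [hN, ← LinearMap.toMatrix_mul, h, map_zero]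
  have hdet : N.det = 0 := by
    have : N.det * N.det = 0 := by
      rw [← Matrix.det_mul, hNN, Matrix.det_zero]
    simpa using this
  have htr : N.trace = 0 := by
    have h00 := congrFun (congrFun hNN 0) 0
    have h11 := congrFun (congrFun hNN 1) 1
    simp [Matrix.mul_apply, Fin.sum_univ_two] at h00 h11
    rw [Matrix.det_fin_two] at hdet
    rw [Matrix.trace_fin_two]
    have h2 : (N 0 0 + N 1 1) * (N 0 0 + N 1 1) = 0 := by linear_combination h00 + h11 + 2 * hdet
    simpa using h2
  have hT : LinearMap.toMatrix b b T = 1 + N := by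
    rw [hN, map_sub, LinearMap.toMatrix_one]; abel
  rw [← LinearMap.charpoly_toMatrix T b, hT, Matrix.charpoly_fin_two]
  rw [Matrix.det_fin_two] at hdet
  rw [Matrix.trace_fin_two] at htr
  have e1 : (1 + N).trace = 2 := by
    simp [Matrix.trace_fin_two]
    linear_combination htr
  have e2 : (1 + N).det = 1 := by
    simp [Matrix.det_fin_two]
    linear_combination htr + hdet
  rw [e1, e2, map_one, map_ofNat]
  ring

variable {W : WeierstrassCurve ℤ} {p : ℕ} [Fact p.Prime] (hΔ : W.Δ ≠ 0)

/-- At a semistable prime `q ≠ p` an inertia element acts unipotently on `E[p ^ n]`. -/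
theorem smul_smul_sub_of_semistable {q : ℕ} (hq : q.Prime) (hqp : q ≠ p)
    (hss : ¬ ((q : ℤ) ∣ W.c₄ ∧ (q : ℤ) ∣ W.Δ)) (hΔ : W.Δ ≠ 0) {A : ValuationSubring Q̄}
    (hA : A.LiesOverPrime q) {σ : GQ} (hσ : σ ∈ A.inertiaSubgroupIn ℚ) (n : ℕ) {x : PtQ W}
    (hx : (p : ℤ) ^ n • x = 0) : σ • (σ • x - x) = σ • x - x :=
  Multiplicative.smul_sub_smul_sub_of_semistable hA hq hΔ hss hσ (n := p ^ n)
    (fun h => hqp ((Nat.prime_dvd_prime_iff_eq hq Fact.out).mp (hq.dvd_of_dvd_pow h)))
    (by rw [← natCast_zsmul]; push_cast; exact hx)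

/-- Inertia at a semistable prime `q ≠ p` acts unipotently on `E[p]`. -/
theorem isUnipotentOnInertiaAt_residualRep {q : ℕ} (hq : q.Prime) (hqp : q ≠ p)
    (hss : ¬ ((q : ℤ) ∣ W.c₄ ∧ (q : ℤ) ∣ W.Δ)) :
    (GaloisRepAdic.ofResidualGaloisRep (residualRep W p hΔ)).IsUnipotentOnInertiaAt q := by
  intro A hA σ hσ
  refine charpoly_eq_sq_of_sub_one_sq (residualRep W p hΔ).finrank_eq _
    (LinearMap.ext fun v => Subtype.ext ?_)
  show σ • (σ • (Subtype.val v : PtQ W) - Subtype.val v)
    - (σ • (Subtype.val v : PtQ W) - Subtype.val v) = 0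
  rw [smul_smul_sub_of_semistable hq hqp hss hΔ hA hσ 1 (by
    rw [pow_one]; exact (Submodule.mem_torsionBy_iff _ _).mp v.2), sub_self]

/-- Inertia at a semistable prime `q ≠ p` acts unipotently on the Tate module. -/
theorem isUnipotentOnInertiaAt_tateRep {q : ℕ} (hq : q.Prime) (hqp : q ≠ p)
    (hss : ¬ ((q : ℤ) ∣ W.c₄ ∧ (q : ℤ) ∣ W.Δ)) :
    (tateRep W p hΔ).IsUnipotentOnInertiaAt q := by
  intro A hA σ hσ
  refine charpoly_eq_sq_of_sub_one_sq (tateRep W p hΔ).finrank_eq _
    (LinearMap.ext fun v => tateRed_eq_zero_of_forall hΔ fun n => ?_)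
  rw [Module.End.mul_apply, LinearMap.sub_apply, LinearMap.sub_apply, Module.End.one_apply,
    Module.End.one_apply, map_sub, red_tateRep, map_sub, red_tateRep]
  rw [smul_smul_sub_of_semistable hq hqp hss hΔ hA hσ n (pow_smul_tateRed hΔ n v), sub_self]

end Fermat.Agent.EC.Rep
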